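/-
P11 / S16 (D3, part B): rational elements of a base-changed field of Laurent series.

Let `F₀ ⊆ ℚ((q))` be a subfield and `L / ℚ` an algebraic extension.  An element of
`laurentBaseChange L F₀ = L · F₀ ⊆ L((q))` all of whose coefficients are rational comes from `F₀`.
(Apply coefficientwise a `ℚ`-linear retraction `λ : L → ℚ` of `ℚ → L`.)
-/
import Mathlib
import Fermat.Prelude.Def_ModularCurve_LaurentCoeff

set_option autoImplicit false

open HahnSeries ModularCurve

noncomputable section

namespace Fermat.Agent.Eis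

section

variable (L : Type*) [Field L] [Algebra ℚ L]

/-- a `ℚ`-linear retraction of `ℚ → L` -/
theorem es_exists_retraction : ∃ lam : L →ₗ[ℚ] ℚ, ∀ r : ℚ, lam (algebraMap ℚ L r) = r := by
  obtain ⟨g, hg⟩ := (Algebra.linearMap ℚ L).exists_leftInverse_of_injective
    (LinearMap.ker_eq_bot.mpr (algebraMap ℚ L).injective)
  exact ⟨g, fun r => by simpa using LinearMap.congr_fun hg r⟩

variable {L}

/-- coefficientwise application of a `ℚ`-linear form -/
def esCoeffLin (lam : L →ₗ[ℚ] ℚ) (h : LaurentSeries L) : LaurentSeries ℚ := h.map lam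

@[simp]
theorem esCoeffLin_coeff (lam : L →ₗ[ℚ] ℚ) (h : LaurentSeries L) (k : ℤ) :
    (esCoeffLin lam h).coeff k = lam (h.coeff k) := rfl

theorem esCoeffLin_add (lam : L →ₗ[ℚ] ℚ) (h h' : LaurentSeries L) :
    esCoeffLin lam (h + h') = esCoeffLin lam h + esCoeffLin lam h' := by
  ext k
  simp

theorem esCoeffLin_zero (lam : L →ₗ[ℚ] ℚ) : esCoeffLin lam (0 : LaurentSeries L) = 0 := by
  ext k
  simp

theorem esCoeffLin_sum (lam : L →ₗ[ℚ] ℚ) {ι : Type*} (s : Finset ι) (h : ι → LaurentSeries L) :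
    esCoeffLin lam (∑ i ∈ s, h i) = ∑ i ∈ s, esCoeffLin lam (h i) := by
  classical
  induction s using Finset.induction_on with
  | empty => simp [esCoeffLin_zero]
  | insert a s ha ih => rw [Finset.sum_insert ha, Finset.sum_insert ha, esCoeffLin_add, ih]

/-- `Λ (a · emb f) = λ(a) f` -/
theorem esCoeffLin_algebraMap_mul_coeffEmb (lam : L →ₗ[ℚ] ℚ) (a : L) (f : LaurentSeries ℚ) :
    esCoeffLin lam (algebraMap L (LaurentSeries L) a * coeffEmb L f) =
      algebraMap ℚ (LaurentSeries ℚ) (lam a) * f := by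
  ext k
  rw [esCoeffLin_coeff, algebraMap_laurentSeries_eq_single, HahnSeries.coeff_single_zero_mul,
    algebraMap_laurentSeries_eq_single, HahnSeries.coeff_single_zero_mul,
    coeffEmb_coeff, mul_comm, ← Algebra.smul_def, map_smul, smul_eq_mul, mul_comm]

theorem esCoeffLin_coeffEmb (lam : L →ₗ[ℚ] ℚ) (hlam : ∀ r : ℚ, lam (algebraMap ℚ L r) = r)
    (f : LaurentSeries ℚ) : esCoeffLin lam (coeffEmb L f) = f := by
  ext k
  rw [esCoeffLin_coeff, coeffEmb_coeff, hlam]

/-- a Laurent series all of whose coefficients are rational is in the image of `coeffEmb` -/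
theorem es_coeffEmb_esCoeffLin (lam : L →ₗ[ℚ] ℚ) (hlam : ∀ r : ℚ, lam (algebraMap ℚ L r) = r)
    (h : LaurentSeries L) (hh : ∀ k, h.coeff k ∈ Set.range (algebraMap ℚ L)) :
    coeffEmb L (esCoeffLin lam h) = h := by
  ext k
  obtain ⟨r, hr⟩ := hh k
  rw [coeffEmb_coeff, esCoeffLin_coeff, ← hr, hlam]

end

section Descent

variable (L : Type*) [Field L] [Algebra ℚ L] [Algebra.IsAlgebraic ℚ L]
variable (F₀ : IntermediateField ℚ (LaurentSeries ℚ))

/-- every element of `L · F₀` is a finite sum `∑ emb(f_a) · a` -/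
theorem es_exists_finsupp_of_mem_laurentBaseChange {h : LaurentSeries L}
    (hh : h ∈ laurentBaseChange L F₀) :
    ∃ c : L →₀ ↥F₀, h = c.sum fun a f =>
      algebraMap L (LaurentSeries L) a * coeffEmb L (f : LaurentSeries ℚ) := by
  let _ : Algebra ↥F₀ (LaurentSeries L) :=
    ((coeffEmb L).comp (algebraMap ↥F₀ (LaurentSeries ℚ))).toAlgebra
  have halg : ∀ f : ↥F₀, algebraMap ↥F₀ (LaurentSeries L) f = coeffEmb L (f : LaurentSeries ℚ) :=
    fun f => rfl
  set M : Subalgebra ↥F₀ (LaurentSeries L) :=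
    Algebra.adjoin ↥F₀ (Set.range (algebraMap L (LaurentSeries L))) with hM
  have hMalg : M.IsAlgebraic := by
    rw [hM, Algebra.isAlgebraic_adjoin_iff]
    rintro _ ⟨a, rfl⟩
    obtain ⟨P, hP0, hP⟩ := (Algebra.IsAlgebraic.isAlgebraic a : IsAlgebraic ℚ a)
    refine ⟨P.map (algebraMap ℚ ↥F₀), ?_, ?_⟩
    · rwa [Ne, Polynomial.map_eq_zero]
    · rw [Polynomial.aeval_def, Polynomial.eval₂_map,
        show (algebraMap ↥F₀ (LaurentSeries L)).comp (algebraMap ℚ ↥F₀) =
          (algebraMap L (LaurentSeries L)).comp (algebraMap ℚ L) from RingHom.ext_rat _ _,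
        ← Polynomial.hom_eval₂, ← Polynomial.aeval_def, hP, map_zero]
  -- `L · F₀ ⊆ M`
  have hle : ∀ x ∈ laurentBaseChange L F₀, x ∈ M := by
    intro x hx
    rw [mem_laurentBaseChange_iff] at hx
    induction hx using Subfield.closure_induction with
    | mem y hy =>
        rcases hy with hy | ⟨z, hz, rfl⟩
        · exact Algebra.subset_adjoin hy
        · exact M.algebraMap_mem (⟨z, hz⟩ : ↥F₀)
    | one => exact M.one_mem
    | add x y _ _ hx hy => exact M.add_mem hx hy
    | neg x _ hx => exact M.neg_mem hx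
    | inv x _ hx =>
        have := Subalgebra.inv_mem_of_algebraic (A := M) (x := ⟨x, hx⟩) (hMalg x hx)
        exact this
    | mul x y _ _ hx hy => exact M.mul_mem hx hy
  have hmem := hle h hh
  have hspan : (M : Set (LaurentSeries L)) =
      Submodule.span ↥F₀ (Set.range (algebraMap L (LaurentSeries L))) := by
    have h1 := Algebra.adjoin_eq_span ↥F₀ (Set.range (algebraMap L (LaurentSeries L)))
    have h2 : Submonoid.closure (Set.range (algebraMap L (LaurentSeries L))) =
        MonoidHom.mrange ((algebraMap L (LaurentSeries L) : L →+* LaurentSeries L) : L →* _) := by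
      rw [← MonoidHom.coe_mrange]
      exact Submonoid.closure_eq _
    rw [h2] at h1
    rw [hM]
    have h3 := congrArg (fun S : Submodule ↥F₀ (LaurentSeries L) => (S : Set (LaurentSeries L))) h1
    simpa using h3
  have hmem' : h ∈ Submodule.span ↥F₀ (Set.range (algebraMap L (LaurentSeries L))) := by
    have : h ∈ (M : Set (LaurentSeries L)) := hmem
    rw [hspan] at this
    exact this
  obtain ⟨c, hc⟩ := Finsupp.mem_span_range_iff_exists_finsupp.mp hmem'
  refine ⟨c, ?_⟩
  rw [← hc]
  refine Finsupp.sum_congr fun a _ => ?_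
  rw [Algebra.smul_def, halg, mul_comm]

/-- **Rational elements of `L · F₀` lie in `F₀`.** -/
theorem es_mem_of_coeffEmb_mem {y : LaurentSeries ℚ}
    (hy : coeffEmb L y ∈ laurentBaseChange L F₀) : y ∈ F₀ := by
  obtain ⟨lam, hlam⟩ := es_exists_retraction L
  obtain ⟨c, hc⟩ := es_exists_finsupp_of_mem_laurentBaseChange L F₀ hy
  have h1 := congrArg (esCoeffLin lam) hc
  rw [esCoeffLin_coeffEmb lam hlam, Finsupp.sum, esCoeffLin_sum] at h1
  rw [h1]
  refine F₀.sum_mem fun a _ => ?_
  rw [esCoeffLin_algebraMap_mul_coeffEmb]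
  exact F₀.mul_mem (F₀.algebraMap_mem _) (c a).2

end Descent

end Fermat.Agent.Eis
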