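/-
P11 / S16 (D3, part B): Galois descent of the Riemann–Roch spaces `L(n (j)_∞)` of `X₀(N)`.

The space `L(n (j)_∞)` of the function field `ℚ̄(X₀(N))` is stable under the arithmetic Galois
action (coefficientwise on `q`-expansions), hence has a `ℚ̄`-basis consisting of elements with
rational `q`-expansion coefficients, and these lie in (the image of) `ℚ(X₀(N))`.
-/
import Mathlib
import Fermat.Prelude.Def_AlgebraicCurve_BaseChangeGalois
import Fermat.Prelude.Def_ModularCurve_ArithmeticGalois
import Fermat.Agent.Lib.Curve.RiemannRoch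
import Fermat.Agent.Lib.S24.Count
import Fermat.Agent.Lib.S23.GaloisDescent
import Fermat.Agent.Lib.S23.ModularStable
import Fermat.Agent.Lib.Igusa.DegreeBound
import Fermat.Agent.Lib.Eis.Semi.RatDescent

set_option autoImplicit false

open HahnSeries ModularCurve AlgebraicCurve Fermat.Agent.Curve Fermat.Agent.S24Lib
  Fermat.Agent.S23Lib Fermat.Agent.Igusa

noncomputable section

namespace Fermat.Agent.Eis

section Stable

variable {K F : Type*} [Field K] [Field F] [Algebra K F]

/-- a semilinear automorphism preserves `L(D)` for an invariant divisor `D` -/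
theorem es_smul_mem_riemannRochSpace_of_invariant (g : SemilinearAut K F) (D : Divisor K F)
    (hD : ∀ v : Place K F, D (g • v) = D v) {h : F} (hh : h ∈ riemannRochSpace D) :
    g • h ∈ riemannRochSpace D := by
  rw [mem_riemannRochSpace_iff] at hh ⊢
  intro v
  set v' : Place K F := g⁻¹ • v with hv'
  have hv : v = g • v' := by rw [hv', smul_inv_smul]
  rcases hh v' with h0 | h1
  · left
    rw [h0, smul_zero]
  · right
    rw [hv, SemilinearAut.ord_smul g v' h, hD]
    exact h1

variable [IsAlgClosed K] [CharZero K] {x : F} (hx : IsFunctionFieldGen K F x)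

include hx in
theorem es_poleDiv_smul_place (g : SemilinearAut K F) (hg : g • x = x) (v : Place K F) :
    poleDiv hx x (g • v) = poleDiv hx x v := by
  rw [poleDiv_apply, poleDiv_apply]
  have := SemilinearAut.ord_smul g v x
  rw [hg] at this
  rw [this]

/-- **`L(n (x)_∞)` is stable under semilinear automorphisms fixing `x`.** -/
theorem es_smul_mem_riemannRochSpace (g : SemilinearAut K F) (hg : g • x = x) (n : ℤ) {h : F}
    (hh : h ∈ riemannRochSpace (n • poleDiv hx x)) :
    g • h ∈ riemannRochSpace (n • poleDiv hx x) := by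
  refine es_smul_mem_riemannRochSpace_of_invariant g _ (fun v => ?_) hh
  rw [Finsupp.smul_apply, Finsupp.smul_apply, es_poleDiv_smul_place hx g hg]

end Stable

section Modular

local notation "Kbar" => AlgebraicClosure ℚ

variable (N : ℕ) [NeZero N]

/-- the `q`-expansion coefficients of an element of `ℚ̄(X₀(N))` -/
def esCoeffFun : modularFunctionFieldBar N →ₗ[Kbar] (ℤ → Kbar) where
  toFun h k := (h : LaurentSeries Kbar).coeff k
  map_add' h h' := by
    funext k
    simp only [IntermediateField.coe_add, HahnSeries.coeff_add, Pi.add_apply]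
  map_smul' c h := by
    funext k
    simp only [IntermediateField.coe_smul, Pi.smul_apply, RingHom.id_apply]
    rw [Algebra.smul_def, algebraMap_laurentSeries_eq_single, HahnSeries.coeff_single_zero_mul,
      smul_eq_mul]

omit [NeZero N] in
theorem esCoeffFun_apply (h : modularFunctionFieldBar N) (k : ℤ) :
    esCoeffFun N h k = (h : LaurentSeries Kbar).coeff k := rfl

omit [NeZero N] in
theorem esCoeffFun_injective : Function.Injective (esCoeffFun N) := by
  intro h h' hh
  apply Subtype.ext
  ext k
  exact congrFun hh k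

omit [NeZero N] in
theorem esCoeffFun_galois_smul (σ : Kbar ≃ₐ[ℚ] Kbar) (h : modularFunctionFieldBar N) :
    esCoeffFun N (arithmeticGalois (modularFunctionFieldFull N) σ • h)
      = fun k => σ (esCoeffFun N h k) := by
  funext k
  rw [esCoeffFun_apply, esCoeffFun_apply, coe_arithmeticGalois_smul, coeffMap_coeff]
  rfl

/-- the rational `q`-expansion coefficients of an element of `ℚ(X₀(N))`, in `ℚ̄` -/
def esCoeffFunRat : ↥(modularFunctionFieldFull N) →ₗ[ℚ] (ℤ → Kbar) where
  toFun y k := algebraMap ℚ Kbar ((y : LaurentSeries ℚ).coeff k)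
  map_add' y y' := by
    funext k
    simp only [IntermediateField.coe_add, HahnSeries.coeff_add, map_add, Pi.add_apply]
  map_smul' c y := by
    funext k
    simp only [Pi.smul_apply, RingHom.id_apply]
    have h1 : ((c • y : ↥(modularFunctionFieldFull N)) : LaurentSeries ℚ) =
        algebraMap ℚ (LaurentSeries ℚ) c * (y : LaurentSeries ℚ) := by
      rw [Rat.smul_def, eq_ratCast]
      push_cast
      rfl
    rw [h1, algebraMap_laurentSeries_eq_single, HahnSeries.coeff_single_zero_mul, map_mul,
      Algebra.smul_def]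

theorem esCoeffFunRat_eq (y : ↥(modularFunctionFieldFull N)) :
    esCoeffFunRat N y = esCoeffFun N (embBar N y) := by
  funext k
  rw [esCoeffFun_apply, coe_embBar, coeffEmb_coeff]
  rfl

/-- **Galois descent of `L(n (j)_∞)`**: there are `dim L(n (j)_∞)` many `ℚ`-linearly independent
elements of `ℚ(X₀(N))` lying in `L(n (j)_∞)`. -/
theorem es_descent (hx : IsFunctionFieldGen Kbar (modularFunctionFieldBar N) (jBar N)) (n : ℤ) :
    ∃ v : Fin (Module.finrank Kbar ↥(riemannRochSpace (n • poleDiv hx (jBar N)))) →
        ↥(modularFunctionFieldFull N),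
      LinearIndependent ℚ v ∧ ∀ i, embBar N (v i) ∈ riemannRochSpace (n • poleDiv hx (jBar N)) := by
  classical
  have hgal := Fermat.Agent.X015.isGalois_qbar
  set W := riemannRochSpace (n • poleDiv hx (jBar N)) with hW
  have : FiniteDimensional Kbar ↥W := finiteDimensional_riemannRochSpace hx _
  set W' : Submodule Kbar (ℤ → Kbar) := W.map (esCoeffFun N) with hW'
  have : FiniteDimensional Kbar ↥W' := by
    rw [hW']
    infer_instance
  have hstable : ∀ σ : Kbar ≃ₐ[ℚ] Kbar, ∀ w ∈ W', (fun i => σ (w i)) ∈ W' := by
    rintro σ w ⟨h, hh, rfl⟩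
    exact ⟨arithmeticGalois (modularFunctionFieldFull N) σ • h,
      es_smul_mem_riemannRochSpace hx _ (arithmeticGalois_smul_jBar N σ) n hh,
      esCoeffFun_galois_smul N σ h⟩
  have hspan := le_span_rational_of_galois_stable ℚ W' hstable
  set R : Set (ℤ → Kbar) := {w | w ∈ W' ∧ ∀ i, w i ∈ Set.range (algebraMap ℚ Kbar)} with hR
  have hRW : Submodule.span Kbar R = W' :=
    le_antisymm (Submodule.span_le.mpr fun w hw => hw.1) hspan
  obtain ⟨b, hbR, hbspan, hbli⟩ := exists_linearIndependent Kbar R
  -- the basis of `W'` given by `b`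
  have hbW : Submodule.span Kbar (Set.range ((↑) : b → ℤ → Kbar)) = W' := by
    rw [Subtype.range_coe, hbspan, hRW]
  let B : Module.Basis b Kbar ↥W' := (Module.Basis.span hbli).map (LinearEquiv.ofEq _ _ hbW)
  have : Fintype b := FiniteDimensional.fintypeBasisIndex B
  have hcard : Fintype.card b = Module.finrank Kbar ↥W := by
    rw [← Module.finrank_eq_card_basis B, hW']
    exact (Submodule.equivMapOfInjective (esCoeffFun N) (esCoeffFun_injective N) W).finrank_eq.symm
  let e : Fin (Module.finrank Kbar ↥W) ≃ b := (Fintype.equivFinOfCardEq hcard).symm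
  -- choose the elements
  obtain ⟨lam, hlam⟩ := es_exists_retraction Kbar
  have hex : ∀ w : b, ∃ y : ↥(modularFunctionFieldFull N),
      embBar N y ∈ W ∧ esCoeffFunRat N y = (w : ℤ → Kbar) := by
    intro w
    obtain ⟨⟨h, hh, hw⟩, hrat⟩ := hbR w.2
    have hrat' : ∀ k, (h : LaurentSeries Kbar).coeff k ∈ Set.range (algebraMap ℚ Kbar) := by
      intro k
      have := hrat k
      rwa [← hw] at this
    have h1 := es_coeffEmb_esCoeffLin lam hlam (h : LaurentSeries Kbar) hrat'
    have h2 : esCoeffLin lam (h : LaurentSeries Kbar) ∈ modularFunctionFieldFull N := by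
      apply es_mem_of_coeffEmb_mem Kbar
      rw [h1]
      exact h.2
    have h3 : embBar N ⟨_, h2⟩ = h := Subtype.ext (by rw [coe_embBar]; exact h1)
    refine ⟨⟨_, h2⟩, ?_, ?_⟩
    · rw [h3]; exact hh
    · rw [esCoeffFunRat_eq, h3]; exact hw
  choose y hyW hyw using hex
  refine ⟨fun i => y (e i), ?_, fun i => hyW (e i)⟩
  have h1 : LinearIndependent Kbar (fun i => ((e i : b) : ℤ → Kbar)) :=
    hbli.comp e e.injective
  have h2 : LinearIndependent ℚ (fun i => ((e i : b) : ℤ → Kbar)) :=
    h1.restrict_scalars' ℚ
  refine LinearIndependent.of_comp (esCoeffFunRat N) ?_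
  convert h2 using 1
  funext i
  exact hyw (e i)

end Modular

end Fermat.Agent.Eis
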