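/-
P11 / S16 (D3, part P1): the characteristic `0` count over `ℚ`.

For every `n` there are `n (p+1) + 1 - g` many `ℚ`-linearly independent elements of
`ℚ(X₀(p)) = ℚ(j, j_p)` which are integral over `ℚ[j]` and such that `j⁻ⁿ f` is integral over
`ℚ[1/j]` (i.e. elements of `L(n (j)_∞)`), where `g` is the genus of `X₀(p)`.
(Riemann's inequality over `ℚ̄`, the genus formula S24, Galois descent.)
-/
import Mathlib
import Fermat.Agent.Lib.Eis.Semi.Descent
import Fermat.Agent.Lib.Eis.Semi.IntegralDescend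
import Fermat.Agent.Lib.Eis.Geom.D3.PoleInt
import Fermat.Agent.Lib.S24.GenusRR
import Fermat.Agent.Lib.Curve.WeilDiff

set_option autoImplicit false

open HahnSeries ModularCurve ModularCurve.IgusaScheme AlgebraicCurve Fermat.Agent.Curve
  Fermat.Agent.S24Lib Fermat.Agent.S23Lib Fermat.Agent.Igusa

noncomputable section

namespace Fermat.Agent.Eis

local notation "Kbar" => AlgebraicClosure ℚ

variable (N : ℕ) [NeZero N]

theorem es_embBar_jFull : embBar N (jFull N) = jBar N := by
  apply Subtype.ext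
  rw [coe_embBar, coe_jFull, coe_jBar']

/-- `ℚ̄ / ℚ` is algebraic (for the canonical `ℚ`-algebra structure of a field) -/
theorem es_isAlgebraic_qbar : Algebra.IsAlgebraic ℚ Kbar := by
  have h := AlgebraicClosure.isAlgebraic ℚ
  refine ⟨fun x => ?_⟩
  obtain ⟨P, hP0, hP⟩ := h.isAlgebraic x
  refine ⟨P, hP0, ?_⟩
  rw [← hP, Polynomial.aeval_def, Polynomial.aeval_def]
  congr 1

omit [NeZero N] in
/-- descent of integrality from `ℚ̄[j]` to `ℚ[j]` (and the same for `1/j`) -/
theorem es_isIntegral_of_embBar (x y : ↥(modularFunctionFieldFull N))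
    (h : IsIntegral (Algebra.adjoin Kbar {embBar N x}) (embBar N y)) :
    IsIntegral (Algebra.adjoin ℚ {x}) y := by
  have := es_isAlgebraic_qbar
  exact es_isIntegral_of_isIntegral_map (k := ℚ) (K := Kbar) (embBar N).toRatAlgHom x y h

/-- the dimension of `L(n (j)_∞)` over `ℚ̄` -/
theorem es_le_finrank_riemannRochSpace (hx : IsFunctionFieldGen Kbar (modularFunctionFieldBar N)
    (jBar N)) (n : ℕ) :
    (n : ℤ) * dedekindPsi N + 1 - genusR Kbar (modularFunctionFieldBar N) ≤
      (Module.finrank Kbar ↥(riemannRochSpace ((n : ℤ) • RRAux.poleDiv hx (jBar N))) : ℤ) := by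
  have h1 := WeilAux.riemann_inequality hx ((n : ℤ) • RRAux.poleDiv hx (jBar N))
  rw [map_zsmul, RRAux.degree_poleDiv_gen hx, finrank_jBar, smul_eq_mul] at h1
  exact h1

/-- **The characteristic `0` count over `ℚ`** (general level): `n ψ(N) + 1 - g` independent
elements of `ℚ(X₀(N))` in `L(n (j)_∞)`. -/
theorem es_exists_rat_family_level (g : ℕ) (hg : (g : ℚ) = ModularCurve.genusFormula N) (n : ℕ) :
    ∃ v : Fin (n * dedekindPsi N + 1 - g) → ↥(modularFunctionFieldFull N), LinearIndependent ℚ v ∧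
      (∀ i, IsIntegral ↥(Algebra.adjoin ℚ {jFull N}) (v i)) ∧
      (∀ i, IsIntegral ↥(Algebra.adjoin ℚ {(jFull N)⁻¹}) ((jFull N)⁻¹ ^ n * v i)) := by
  have hx := isFunctionFieldGen_jBar N
  have hgen : genusR Kbar (modularFunctionFieldBar N) = g := by
    have h1 := genusR_eq_genusFormula N
    rw [← hg] at h1
    exact_mod_cast h1
  have hle := es_le_finrank_riemannRochSpace N hx n
  rw [hgen] at hle
  have hle' : n * dedekindPsi N + 1 - g ≤
      Module.finrank Kbar ↥(riemannRochSpace ((n : ℤ) • RRAux.poleDiv hx (jBar N))) := by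
    omega
  obtain ⟨v, hv, hmem⟩ := es_descent N hx (n : ℤ)
  refine ⟨fun i => v (Fin.castLE hle' i), hv.comp _ (Fin.castLE_injective hle'), fun i => ?_,
    fun i => ?_⟩
  · have h := (ed3_isIntegral_of_mem_riemannRochSpace hx n (hmem (Fin.castLE hle' i))).1
    apply es_isIntegral_of_embBar N
    rw [es_embBar_jFull]
    exact h
  · have h := (ed3_isIntegral_of_mem_riemannRochSpace hx n (hmem (Fin.castLE hle' i))).2
    apply es_isIntegral_of_embBar N
    rw [map_inv₀, es_embBar_jFull, map_mul, map_pow, map_inv₀, es_embBar_jFull, mul_comm]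
    exact h

/-- **The characteristic `0` count over `ℚ`** (prime level `p`). -/
theorem es_exists_rat_family (p : ℕ) [NeZero p] (hp : p.Prime) (g : ℕ)
    (hg : (g : ℚ) = ModularCurve.genusFormula p) (n : ℕ) :
    ∃ v : Fin (n * (p + 1) + 1 - g) → ↥(modularFunctionFieldFull p), LinearIndependent ℚ v ∧
      (∀ i, IsIntegral ↥(Algebra.adjoin ℚ {jFull p}) (v i)) ∧
      (∀ i, IsIntegral ↥(Algebra.adjoin ℚ {(jFull p)⁻¹}) ((jFull p)⁻¹ ^ n * v i)) := by
  have h := es_exists_rat_family_level p g hg n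
  have hpsi : dedekindPsi p = p + 1 := by
    have := dedekindPsi_prime_pow hp one_ne_zero
    simpa using this
  rwa [hpsi] at h

end Fermat.Agent.Eis
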