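/-
P11 / S16 (D3, part P1): descent of integrality along an algebraic extension of the constants.

`φ : F → F'` a homomorphism of fields, `F` over `k`, `F'` over an algebraic extension `K / k`.
If `φ y` is integral over `K[φ x]` then `y` is integral over `k[x]`.
-/
import Mathlib

set_option autoImplicit false

namespace Fermat.Agent.Eis

theorem es_isIntegral_of_isIntegral_map {k K F F' : Type*} [Field k] [Field K] [Field F]
    [Field F'] [Algebra k K] [Algebra.IsAlgebraic k K] [Algebra k F] [Algebra K F']
    [Algebra k F'] [IsScalarTower k K F'] (φ : F →ₐ[k] F') (x y : F)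
    (h : IsIntegral (Algebra.adjoin K {φ x}) (φ y)) :
    IsIntegral (Algebra.adjoin k {x}) y := by
  set R : Subalgebra k F := Algebra.adjoin k {x} with hR
  set S : Subalgebra K F' := Algebra.adjoin K {φ x} with hS
  let _ : Algebra R F' := (φ.toRingHom.comp (algebraMap R F)).toAlgebra
  have halg : ∀ r : R, algebraMap R F' r = φ (r : F) := fun r => rfl
  have : IsScalarTower k R F' := IsScalarTower.of_algebraMap_eq fun c => by
    rw [halg]
    exact (φ.commutes c).symm
  have hmap : ∀ r : R, (φ.toRingHom.comp (algebraMap R F)) r ∈ S := by
    rintro ⟨r, hr⟩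
    show φ r ∈ S
    induction hr using Algebra.adjoin_induction with
    | mem z hz =>
        rw [Set.mem_singleton_iff] at hz
        rw [hz]
        exact Algebra.self_mem_adjoin_singleton K (φ x)
    | algebraMap c =>
        rw [φ.commutes, IsScalarTower.algebraMap_apply k K F']
        exact S.algebraMap_mem _
    | add a b _ _ ha hb => rw [map_add]; exact S.add_mem ha hb
    | mul a b _ _ ha hb => rw [map_mul]; exact S.mul_mem ha hb
  let _ : Algebra R S := (RingHom.codRestrict (φ.toRingHom.comp (algebraMap R F)) S hmap).toAlgebra
  have : IsScalarTower R S F' := IsScalarTower.of_algebraMap_eq fun r => rfl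
  -- every element of `S` is integral over `R`
  have hint : ∀ s : F', s ∈ S → IsIntegral R s := by
    intro s hs
    induction hs using Algebra.adjoin_induction with
    | mem z hz =>
        rw [Set.mem_singleton_iff] at hz
        rw [hz]
        exact isIntegral_algebraMap (x := (⟨x, Algebra.self_mem_adjoin_singleton k x⟩ : R))
    | algebraMap c =>
        have h1 : IsIntegral k c := (Algebra.IsAlgebraic.isAlgebraic c).isIntegral
        have h2 : IsIntegral k (algebraMap K F' c) := h1.algebraMap
        exact h2.tower_top
    | add a b _ _ ha hb => exact ha.add hb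
    | mul a b _ _ ha hb => exact ha.mul hb
  have : Algebra.IsIntegral R S := ⟨fun s =>
    (isIntegral_algebraMap_iff (B := F') Subtype.val_injective).mp (hint s s.2)⟩
  have h1 : IsIntegral R (φ y) := isIntegral_trans (A := S) _ h
  let φR : F →ₐ[R] F' := { φ.toRingHom with commutes' := fun r => rfl }
  exact (isIntegral_algHom_iff φR φ.toRingHom.injective).mp h1

end Fermat.Agent.Eis
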